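/-
S15 cell, layer L12, the seam terms: `Interfaces80b.CuspFactsP Cusp45.c0` (the Prop of record
of the top seam `TopSeam80b.s15_of_layersP`) and `Interfaces80.CuspFacts Cusp45.c0` (the input
of `TopSeam80.redC_of_redFix`).

Pure assembly of helper45's `Cusp45.cuspGalois`, `Cusp45.cuspHecke`, `Cusp45.cuspTorsion`,
`Cusp45.cuspNeZero` — no new mathematics.
-/
import Mathlib
import Fermat.Agent.S15P.Interfaces80b
import Fermat.Agent.S15P.Cusp45.Main

set_option autoImplicit false

namespace Fermat.Agent.S15P.Cusp.Facts12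

open AlgebraicCurve ModularCurve Fermat.Agent.S24 Fermat.Agent.S15P.Cusp45

/-- **(L12)** `CuspFactsP` (torsion clause `(p - 1) • c₀ = 0`) for the cuspidal class
`c₀ = [(0) − (∞)]` of `Cusp45/Defs`: the first input of `TopSeam80b.s15_of_layersP`. -/
theorem cuspFactsP :
    Fermat.Agent.S15P.Interfaces80b.CuspFactsP (fun (p : ℕ) [NeZero p] => c0 p) := by
  intro p _ hp hp'
  exact ⟨fun σ => (cuspGalois p hp σ).2.2, cuspTorsion p hp, cuspNeZero p hp hp',
    fun q hq => cuspHecke p hp q hq⟩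

/-- **(L12)** `CuspFacts` (torsion clause `∃ n ≠ 0, n • c₀ = 0`), the input of
`TopSeam80.redC_of_redFix`. -/
theorem cuspFacts :
    Fermat.Agent.S15P.Interfaces80.CuspFacts (fun (p : ℕ) [NeZero p] => c0 p) := by
  intro p _ hp hp'
  exact ⟨fun σ => (cuspGalois p hp σ).2.2,
    ⟨p - 1, by have := hp.two_le; omega, cuspTorsion p hp⟩,
    cuspNeZero p hp hp',
    fun q hq => cuspHecke p hp q hq⟩

end Fermat.Agent.S15P.Cusp.Facts12
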