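/-
S15 cell, layer L12 (c): the modular unit `Δ(q)/Δ(q^p)` on `X₀(p)` and the torsion of the
cuspidal class.
-/
import Mathlib
import Fermat.Agent.CAR.V3.UnitRel
import Fermat.Agent.CAR.V3.UnitCert
import Fermat.Agent.Lib.FF.PlaceInf
import Fermat.Agent.Lib.FF.CanonicalFF1
import Fermat.Agent.ESJ.Cong.ConjNormAnalytic
import Fermat.Agent.S20.IndexGamma0

set_option autoImplicit false
set_option linter.style.haveILetI false

noncomputable section

namespace Fermat.Agent.S15P.Cusp.Unit12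

open AlgebraicCurve ModularCurve Fermat.Agent.S24 Fermat.Agent.S28
open Fermat.Agent.CAR.V3 Fermat.Agent.Lib.FF Fermat.Agent.Lib.FF.PlaceInf
open scoped IntermediateField

variable (p : ℕ) [NeZero p]

theorem coe_jBar : ((jBar p : FN p) : LaurentSeries KQ) = jqModC KQ := by
  show ((jFormal p ⟨1, one_dvd p⟩ : FN p) : LaurentSeries KQ) = _
  rw [Fermat.Agent.ESJ.Cong.ConjAnalytic.coe_jFormal, TD.Jd_one]

theorem coe_jN : ((jFormal p ⟨p, dvd_rfl⟩ : FN p) : LaurentSeries KQ) = jqNModC KQ p := by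
  rw [Fermat.Agent.ESJ.Cong.ConjAnalytic.coe_jFormal, TD.Jd_eq_jqNModC]

theorem jq_mem : jqModC KQ ∈ modularFunctionFieldBar p := by
  have h := (jBar p : FN p).2
  rwa [coe_jBar] at h

theorem jqN_mem : jqNModC KQ p ∈ modularFunctionFieldBar p := by
  have h := (jFormal p ⟨p, dvd_rfl⟩ : FN p).2
  rwa [coe_jN] at h

variable {p}

theorem u1_mem (hp : p.Prime) : Units.u1 KQ p ∈ modularFunctionFieldBar p :=
  Units.u1_mem hp (modularFunctionFieldBar p).toSubfield (jq_mem p) (jqN_mem p)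

variable (p) in
/-- **The modular unit `Δ(q)/Δ(q^p)`** as a function on `X₀(p)` over `ℚ̄`. -/
def uDelta (hp : p.Prime) : FN p := ⟨Units.u1 KQ p, u1_mem hp⟩

theorem coe_uDelta (hp : p.Prime) : ((uDelta p hp : FN p) : LaurentSeries KQ) = Units.u1 KQ p := rfl

theorem uDelta_ne_zero (hp : p.Prime) : uDelta p hp ≠ 0 := by
  intro h0
  have h := coe_uDelta hp
  rw [h0] at h
  exact UnitCert.u1_ne_zero p KQ h.symm

/-! ### Orders of the unit -/

/-- At the cusp `∞` the unit has order `1 - p`. -/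
theorem order_u1 : (Units.u1 KQ p).order = 1 - (p : ℤ) := by
  have h := Units.isLead_u1 KQ p
  exact ValInd.order_eq_of_coeff (by rw [h.coeff_eq]; exact one_ne_zero) (fun k hk => h.coeff_lt hk)

theorem ord_placeInf_uDelta (hp : p.Prime) :
    (placeInfL KQ p).ord (uDelta p hp) = 1 - (p : ℤ) := by
  rw [placeInfL_ord KQ p _ (uDelta_ne_zero hp), coe_uDelta, order_u1]

theorem ord_placeInf_jBar : (placeInfL KQ p).ord (jBar p) = -1 := by
  have hne : jBar p ≠ 0 := by
    intro h0
    have h := coe_jBar p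
    rw [h0, ZeroMemClass.coe_zero] at h
    have h2 := ValInd.order_Jd (K := KQ) 1 one_ne_zero
    rw [TD.Jd_one, ← h, HahnSeries.order_zero] at h2
    simp at h2
  rw [placeInfL_ord KQ p _ hne, coe_jBar]
  have h2 := ValInd.order_Jd (K := KQ) 1 one_ne_zero
  rw [TD.Jd_one] at h2
  simpa using h2

/-- **No zeros or poles off the poles of `j`**: the unit has order `0` at every place where `j`
is finite. -/
theorem ord_uDelta_of_nonneg (hp : p.Prime) (v : Place KQ (FN p)) (hv : 0 ≤ v.ord (jBar p)) :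
    v.ord (uDelta p hp) = 0 := by
  have hjmem : jBar p ∈ v.toValuationSubring := mem_of_ord_nonneg v hv
  let ι : FN p →+* LaurentSeries KQ := (modularFunctionFieldBar p).val
  let φ : v.toValuationSubring →+* LaurentSeries KQ :=
    ι.comp (algebraMap v.toValuationSubring (FN p))
  letI : Algebra v.toValuationSubring (LaurentSeries KQ) := φ.toAlgebra
  have hJ : IsIntegral v.toValuationSubring (jqModC KQ) := by
    have e : jqModC KQ = algebraMap v.toValuationSubring (LaurentSeries KQ) ⟨jBar p, hjmem⟩ := by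
      show _ = ι (jBar p)
      exact (coe_jBar p).symm
    rw [e]
    exact isIntegral_algebraMap
  have back : ∀ y : FN p, IsIntegral v.toValuationSubring (ι y) →
      y ∈ v.toValuationSubring := by
    rintro y ⟨P, hP, hP0⟩
    have hy : IsIntegral v.toValuationSubring y := by
      refine ⟨P, hP, Subtype.ext ?_⟩
      have h2 := Polynomial.hom_eval₂ P (algebraMap v.toValuationSubring (FN p)) ι y
      exact h2.trans hP0
    obtain ⟨z, hz⟩ := (IsIntegrallyClosed.isIntegral_iff (R := v.toValuationSubring)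
      (K := FN p)).mp hy
    rw [← hz]
    exact z.2
  obtain ⟨-, -, h1, h2, -, -⟩ := Units.isIntegral_units KQ hp hJ
  have hu : uDelta p hp ∈ v.toValuationSubring := back _ h1
  have hg : algebraMap KQ (FN p) ((p : KQ) ^ 12) * (uDelta p hp)⁻¹ ∈ v.toValuationSubring := by
    apply back
    have e : ι (algebraMap KQ (FN p) ((p : KQ) ^ 12) * (uDelta p hp)⁻¹) =
        HahnSeries.C ((p : KQ) ^ 12) * Units.u1inv KQ p := by
      rw [map_mul, map_inv₀]
      have e1 : ι (uDelta p hp) = Units.u1 KQ p := rfl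
      rw [e1, ← UnitCert.u1inv_eq_inv p KQ]
      congr 1
      show algebraMap KQ (LaurentSeries KQ) _ = _
      rw [algebraMap_laurentSeries_eq_single, HahnSeries.C_apply]
    rw [e]
    exact h2
  have h3 := ord_nonneg_of_mem v hu
  have h4 := ord_nonneg_of_mem v hg
  have hc : algebraMap KQ (FN p) ((p : KQ) ^ 12) ≠ 0 := by
    rw [Ne, map_eq_zero]
    exact pow_ne_zero 12 (Nat.cast_ne_zero.mpr hp.ne_zero)
  rw [v.ord_mul hc (inv_ne_zero (uDelta_ne_zero hp)), ord_algebraMap, v.ord_inv, zero_add] at h4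
  omega

/-! ### The poles of `j` on `X₀(p)` -/

theorem card_XN_prime (hp : p.Prime) : Nat.card (XN p) = p + 1 := by
  have h1 : Nat.card (XN p) = (CongruenceSubgroup.Gamma0 p).index := rfl
  rw [h1, Fermat.Agent.S20.Count.index_Gamma0 p]
  have h2 := Fermat.Agent.S20.Count.Index.dedekindPsi_mul_of_not_dvd hp one_ne_zero
    (fun h => hp.one_lt.ne' (Nat.dvd_one.mp h))
  rwa [mul_one, dedekindPsi_one, mul_one] at h2

theorem finrank_jBar_prime (hp : p.Prime) : Module.finrank KQ⟮jBar p⟯ (FN p) = p + 1 := by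
  rw [finrank_jBar p, card_XN_prime hp]

/-- **The poles of `j` on `X₀(p)`**: if `j` has a simple pole at `Pinf` and a pole of order `p`
at `P0`, these are the only poles. -/
theorem eq_or_eq_of_ord_jBar_neg (hp : p.Prime) (Pinf P0 : Place KQ (FN p))
    (hinf : Pinf.ord (jBar p) = -1) (h0 : P0.ord (jBar p) = -(p : ℤ))
    (v : Place KQ (FN p)) (hv : v.ord (jBar p) < 0) : v = Pinf ∨ v = P0 := by
  classical
  by_contra hcon
  rw [not_or] at hcon
  obtain ⟨hv1, hv2⟩ := hcon
  have hp2 : (2 : ℤ) ≤ p := by exact_mod_cast hp.two_le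
  have h01 : Pinf ≠ P0 := by
    rintro rfl
    rw [hinf] at h0
    omega
  obtain ⟨hfin, hsum⟩ := (Res.isFF1_modular p).poles_le
  rw [finrank_jBar_prime hp] at hsum
  have hsub : ({Pinf, P0, v} : Finset (Place KQ (FN p))) ⊆ hfin.toFinset := by
    intro w hw
    rw [Set.Finite.mem_toFinset, Set.mem_ofPred_eq]
    simp only [Finset.mem_insert, Finset.mem_singleton] at hw
    rcases hw with rfl | rfl | rfl
    · rw [hinf]; omega
    · rw [h0]; omega
    · exact hv
  have hle := Finset.sum_le_sum_of_subset_of_nonneg (f := fun w => -w.ord (jBar p)) hsub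
    (fun w hw _ => by
      rw [Set.Finite.mem_toFinset, Set.mem_ofPred_eq] at hw
      show (0 : ℤ) ≤ -w.ord (jBar p)
      omega)
  rw [Finset.sum_insert (by simp [h01, Ne.symm hv1]), Finset.sum_insert (by simp [Ne.symm hv2]),
    Finset.sum_singleton, hinf, h0] at hle
  push_cast at hsum
  have h3 := hle.trans hsum
  omega

/-- A place where `j` has a simple pole is the cusp `∞` (given a pole of order `p` elsewhere). -/
theorem eq_placeInf (hp : p.Prime) (Pinf P0 : Place KQ (FN p))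
    (hinf : Pinf.ord (jBar p) = -1) (h0 : P0.ord (jBar p) = -(p : ℤ)) :
    Pinf = placeInfL KQ p := by
  have hp2 : (2 : ℤ) ≤ p := by exact_mod_cast hp.two_le
  rcases eq_or_eq_of_ord_jBar_neg hp Pinf P0 hinf h0 (placeInfL KQ p)
    (by rw [ord_placeInf_jBar]; omega) with h | h
  · exact h.symm
  · exfalso
    have h1 := ord_placeInf_jBar (p := p)
    rw [h, h0] at h1
    omega

/-! ### The divisor of the unit -/

/-- **`div(Δ(q)/Δ(q^p)) = (p - 1)·((0) - (∞))`**, pointwise: `Pinf` is any place where `j` has a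
simple pole, `P0` any place where `j` has a pole of order `p`. -/
theorem ord_uDelta (hp : p.Prime) (Pinf P0 : Place KQ (FN p))
    (hinf : Pinf.ord (jBar p) = -1) (h0 : P0.ord (jBar p) = -(p : ℤ)) (v : Place KQ (FN p)) :
    v.ord (uDelta p hp) =
      ((p : ℤ) - 1) * ((Finsupp.single P0 (1 : ℤ) - Finsupp.single Pinf (1 : ℤ) :
        Divisor KQ (FN p)) v) := by
  classical
  have hp2 : (2 : ℤ) ≤ p := by exact_mod_cast hp.two_le
  have h01 : Pinf ≠ P0 := by
    rintro rfl
    rw [hinf] at h0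
    omega
  have hI : Pinf.ord (uDelta p hp) = 1 - (p : ℤ) := by
    rw [eq_placeInf hp Pinf P0 hinf h0, ord_placeInf_uDelta]
  have hoff : ∀ w : Place KQ (FN p), w ≠ Pinf → w ≠ P0 → w.ord (uDelta p hp) = 0 := by
    intro w hw1 hw2
    apply ord_uDelta_of_nonneg hp w
    by_contra hneg
    rcases eq_or_eq_of_ord_jBar_neg hp Pinf P0 hinf h0 w (not_le.mp hneg) with h | h
    · exact hw1 h
    · exact hw2 h
  have hZ : P0.ord (uDelta p hp) = (p : ℤ) - 1 := by
    have hFF := Res.isFF1_modular p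
    haveI := hFF.hasPrincipalDivisors
    obtain ⟨D, hD, hdeg⟩ := HasPrincipalDivisors.exists_divisor (K := KQ) (uDelta p hp)
      (uDelta_ne_zero hp)
    rw [hFF.degree_eq_sum] at hdeg
    have hsub : D.support ⊆ ({Pinf, P0} : Finset (Place KQ (FN p))) := by
      intro w hw
      rw [Finsupp.mem_support_iff, hD w] at hw
      simp only [Finset.mem_insert, Finset.mem_singleton]
      by_contra hcon
      rw [not_or] at hcon
      exact hw (hoff w hcon.1 hcon.2)
    have hsum := Finset.sum_subset (f := fun w => D w) hsub (fun w _ hw => by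
      rwa [Finsupp.notMem_support_iff] at hw)
    rw [hdeg, Finset.sum_insert (by simp [h01]), Finset.sum_singleton, hD, hD, hI] at hsum
    omega
  by_cases hv1 : v = Pinf
  · rw [hv1, hI, Finsupp.sub_apply, Finsupp.single_eq_same,
      Finsupp.single_eq_of_ne h01]
    ring
  · by_cases hv2 : v = P0
    · rw [hv2, hZ, Finsupp.sub_apply, Finsupp.single_eq_same,
        Finsupp.single_eq_of_ne (Ne.symm h01)]
      ring
    · rw [hoff v hv1 hv2, Finsupp.sub_apply, Finsupp.single_eq_of_ne hv1,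
        Finsupp.single_eq_of_ne hv2]
      ring

/-- The divisor `(0) - (∞)` has degree zero. -/
theorem degree_cusp (Pinf P0 : Place KQ (FN p)) :
    (Finsupp.single P0 (1 : ℤ) - Finsupp.single Pinf (1 : ℤ) : Divisor KQ (FN p)) ∈
      Divisor.degZero (K := KQ) (F := FN p) := by
  have hFF := Res.isFF1_modular p
  rw [Divisor.mem_degZero, map_sub, Divisor.degree_single, Divisor.degree_single,
    hFF.deg_eq_one, hFF.deg_eq_one]
  simp

/-- **L12 (c): the cuspidal class is torsion**, killed by `p - 1`. -/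
theorem sub_one_nsmul_mk_eq_zero (hp : p.Prime) (Pinf P0 : Place KQ (FN p))
    (hinf : Pinf.ord (jBar p) = -1) (h0 : P0.ord (jBar p) = -(p : ℤ))
    (D : Divisor.degZero (K := KQ) (F := FN p))
    (hD : (D : Divisor KQ (FN p)) = Finsupp.single P0 (1 : ℤ) - Finsupp.single Pinf (1 : ℤ)) :
    (p - 1) • (Pic0.mk D : JZero p) = 0 := by
  have e : (p - 1) • (Pic0.mk D : JZero p) = Pic0.mk ((p - 1) • D) := rfl
  rw [e]
  refine (QuotientAddGroup.eq_zero_iff _).mpr (AddSubgroup.mem_addSubgroupOf.mpr ?_)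
  refine ⟨uDelta p hp, uDelta_ne_zero hp, fun v => ?_⟩
  rw [ord_uDelta hp Pinf P0 hinf h0 v, ← hD]
  have h1 : (((p - 1) • D : Divisor.degZero (K := KQ) (F := FN p)) : Divisor KQ (FN p)) =
      (p - 1) • (D : Divisor KQ (FN p)) := rfl
  rw [h1, Finsupp.smul_apply, nsmul_eq_mul, Nat.cast_sub hp.one_lt.le, Nat.cast_one]

/-- The divisor of the unit, as a statement about principal divisors:
`(p - 1)·((0) - (∞)) = div(Δ(q)/Δ(q^p))`. -/
theorem sub_one_smul_cusp_mem_principal (hp : p.Prime) (Pinf P0 : Place KQ (FN p))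
    (hinf : Pinf.ord (jBar p) = -1) (h0 : P0.ord (jBar p) = -(p : ℤ)) :
    ((p : ℤ) - 1) • (Finsupp.single P0 (1 : ℤ) - Finsupp.single Pinf (1 : ℤ) :
      Divisor KQ (FN p)) ∈ Divisor.principal (K := KQ) (F := FN p) :=
  ⟨uDelta p hp, uDelta_ne_zero hp, fun v => by
    rw [ord_uDelta hp Pinf P0 hinf h0 v, Finsupp.smul_apply, smul_eq_mul]⟩

/-- L12 (c), `ℤ`-multiple form. -/
theorem sub_one_zsmul_mk_eq_zero (hp : p.Prime) (Pinf P0 : Place KQ (FN p))
    (hinf : Pinf.ord (jBar p) = -1) (h0 : P0.ord (jBar p) = -(p : ℤ))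
    (D : Divisor.degZero (K := KQ) (F := FN p))
    (hD : (D : Divisor KQ (FN p)) = Finsupp.single P0 (1 : ℤ) - Finsupp.single Pinf (1 : ℤ)) :
    ((p : ℤ) - 1) • (Pic0.mk D : JZero p) = 0 := by
  have h := sub_one_nsmul_mk_eq_zero hp Pinf P0 hinf h0 D hD
  rw [← natCast_zsmul, Nat.cast_sub hp.one_lt.le, Nat.cast_one] at h
  exact h

/-- L12 (c): the cuspidal class is a torsion point of `J₀(p)`. -/
theorem exists_nsmul_mk_eq_zero (hp : p.Prime) (Pinf P0 : Place KQ (FN p))
    (hinf : Pinf.ord (jBar p) = -1) (h0 : P0.ord (jBar p) = -(p : ℤ))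
    (D : Divisor.degZero (K := KQ) (F := FN p))
    (hD : (D : Divisor KQ (FN p)) = Finsupp.single P0 (1 : ℤ) - Finsupp.single Pinf (1 : ℤ)) :
    ∃ n : ℕ, n ≠ 0 ∧ n • (Pic0.mk D : JZero p) = 0 :=
  ⟨p - 1, by have := hp.two_le; omega, sub_one_nsmul_mk_eq_zero hp Pinf P0 hinf h0 D hD⟩

end Fermat.Agent.S15P.Cusp.Unit12
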